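import Fermat.Agent.Lib.RR.Duality
import Fermat.Agent.S37.H940.PlaceBasic

/-!
# S37 / node_rim, leaf RIM-LPSEP (helper939): approximation lemmas from Riemann–Roch

`K` infinite, `F/K` a function field with `FF1`.  For a place `v₀` and a finite set `S` of places
with `v₀ ∉ S`:

* `exists_localParam` : for `Q ∈ S` there is `z`, regular at every place `≠ v₀`, with
  `ord_Q z = 1` and `ord_{Q'} z = 0` for the other `Q' ∈ S`;
* `exists_separator` : there is `z`, regular at every place `≠ v₀`, taking pairwise distinct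
  values at the places of `S`.
-/

set_option autoImplicit false
set_option linter.unusedSectionVars false

noncomputable section

namespace Fermat.Agent.S37.Rim.H939

open AlgebraicCurve Fermat.Agent.Lib.RR Fermat.Agent.S37.H940

variable {K F : Type*} [Field K] [Field F] [Algebra K F] [FF1 K F]

/-- A finite family of subspaces, none of which contains `L(D)`, does not cover `L(D)`. -/
theorem exists_mem_L_forall_notMem [Infinite K] (D : Divisor K F) {ι : Type*} [Finite ι]
    (p : ι → Submodule K F) (hp : ∀ i, ¬ riemannRochSpace D ≤ p i) :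
    ∃ z ∈ riemannRochSpace D, ∀ i, z ∉ p i := by
  classical
  let W := riemannRochSpace D
  let q : ι → Submodule K W := fun i => Submodule.comap W.subtype (p i)
  have hq : ∀ i, q i ≠ ⊤ := by
    intro i htop
    apply hp i
    intro z hz
    have : (⟨z, hz⟩ : W) ∈ q i := by rw [htop]; exact Submodule.mem_top
    exact this
  obtain ⟨x, hx⟩ := Submodule.exists_forall_notMem_of_forall_ne_top q hq
  exact ⟨x.1, x.2, fun i hi => hx i hi⟩

/-- For `deg D` large, removing a point drops `ℓ` by one. -/
theorem ell_sub_prim_lt {D : Divisor K F} (v : Place K F)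
    (h : 2 * (genusFF K F : ℤ) - 2 < Divisor.degree D - 1) :
    ell (D - prim v) < ell D := by
  have h1 : (ell D : ℤ) = Divisor.degree D + 1 - (genusFF K F : ℤ) :=
    ell_eq_of_degree_gt (by omega)
  have h2 : (ell (D - prim v) : ℤ) = Divisor.degree (D - prim v) + 1 - (genusFF K F : ℤ) :=
    ell_eq_of_degree_gt (by rw [map_sub, degree_prim']; omega)
  rw [map_sub, degree_prim'] at h2
  omega

theorem not_L_le_L_sub_prim {D : Divisor K F} (v : Place K F)
    (h : 2 * (genusFF K F : ℤ) - 2 < Divisor.degree D - 1) :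
    ¬ riemannRochSpace D ≤ riemannRochSpace (D - prim v) := by
  intro hle
  have h1 := Submodule.finrank_mono hle
  have h2 := ell_sub_prim_lt v h
  unfold ell at h2
  omega

/-- **Local parameters.** -/
theorem exists_localParam [Infinite K] (v₀ : Place K F) (S : Finset (Place K F)) (hv₀ : v₀ ∉ S)
    (Q : Place K F) (hQ : Q ∈ S) :
    ∃ z : F, (∀ w : Place K F, w ≠ v₀ → 0 ≤ w.ord z) ∧ Q.ord z = 1 ∧
      ∀ Q' ∈ S, Q' ≠ Q → Q'.ord z = 0 := by
  classical
  have hQv : Q ≠ v₀ := fun h => hv₀ (h ▸ hQ)
  set g : ℤ := (genusFF K F : ℤ) with hg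
  set m : ℕ := (2 * g + 3).toNat with hm
  have hm' : 2 * g + 3 ≤ (m : ℤ) := Int.self_le_toNat _
  set D : Divisor K F := (m : ℤ) • prim v₀ - prim Q with hD
  have hdeg : Divisor.degree D = (m : ℤ) - 1 := by
    rw [hD, map_sub, map_zsmul, degree_prim', degree_prim']; simp
  have hbig : 2 * (genusFF K F : ℤ) - 2 < Divisor.degree D - 1 := by rw [hdeg]; omega
  obtain ⟨z, hzD, hz⟩ := exists_mem_L_forall_notMem D
    (fun Q' : S => riemannRochSpace (D - prim (Q' : Place K F)))
    (fun Q' => not_L_le_L_sub_prim _ hbig)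
  have hz0 : z ≠ 0 := by
    intro h0
    exact hz ⟨Q, hQ⟩ (h0 ▸ Submodule.zero_mem _)
  rw [mem_L_iff] at hzD
  have hDQ : D Q = -1 := by
    rw [hD, Finsupp.sub_apply, Finsupp.smul_apply, prim_apply_of_ne hQv]
    simp [prim]
  have hDw : ∀ w : Place K F, w ≠ v₀ → w ≠ Q → D w = 0 := by
    intro w h1 h2
    rw [hD, Finsupp.sub_apply, Finsupp.smul_apply, prim_apply_of_ne h1, prim_apply_of_ne h2]
    simp
  have hord : ∀ w : Place K F, -D w ≤ w.ord z := fun w => (hzD w).resolve_left hz0
  -- failure of membership is located at the removed point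
  have hfail : ∀ Q' ∈ S, ¬ (-(D Q') + 1 ≤ Q'.ord z) := by
    intro Q' hQ' hcon
    apply hz ⟨Q', hQ'⟩
    rw [mem_L_iff]
    intro w
    right
    by_cases hw : w = Q'
    · subst hw
      rw [Finsupp.sub_apply]
      simp only [prim, Finsupp.single_eq_same]
      omega
    · rw [Finsupp.sub_apply, prim_apply_of_ne hw]
      have := hord w
      omega
  refine ⟨z, ?_, ?_, ?_⟩
  · intro w hw
    by_cases hwQ : w = Q
    · have := hord w
      rw [hwQ] at this ⊢
      rw [hDQ] at this
      omega
    · have := hord w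
      rw [hDw w hw hwQ] at this
      omega
  · have h1 := hord Q
    have h2 := hfail Q hQ
    rw [hDQ] at h1 h2
    omega
  · intro Q' hQ' hne
    have hQ'v : Q' ≠ v₀ := fun h => hv₀ (h ▸ hQ')
    have h1 := hord Q'
    have h2 := hfail Q' hQ'
    rw [hDw Q' hQ'v hne] at h1 h2
    omega

/-- **Separators.** -/
theorem exists_separator [Infinite K] (v₀ : Place K F) (S : Finset (Place K F)) (hv₀ : v₀ ∉ S) :
    ∃ z : F, (∀ w : Place K F, w ≠ v₀ → 0 ≤ w.ord z) ∧
      ∀ Q ∈ S, ∀ Q' ∈ S, ∀ a : K,
        InMax Q (z - algebraMap K F a) → InMax Q' (z - algebraMap K F a) → Q = Q' := by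
  classical
  set g : ℤ := (genusFF K F : ℤ) with hg
  set m : ℕ := (2 * g + 3).toNat with hm
  have hm' : 2 * g + 3 ≤ (m : ℤ) := Int.self_le_toNat _
  set D : Divisor K F := (m : ℤ) • prim v₀ with hD
  have hdeg : Divisor.degree D = (m : ℤ) := by
    rw [hD, map_zsmul, degree_prim']; simp
  have hD0 : 0 ≤ D := by
    rw [hD]
    intro w
    rw [Finsupp.smul_apply, Finsupp.zero_apply]
    by_cases hw : w = v₀
    · subst hw; simp [prim]
    · rw [prim_apply_of_ne hw]; simp
  have hDw : ∀ w : Place K F, w ≠ v₀ → D w = 0 := by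
    intro w h1
    rw [hD, Finsupp.smul_apply, prim_apply_of_ne h1]
    simp
  -- the bad subspaces
  let p : {x : S × S // (x.1 : Place K F) ≠ x.2} → Submodule K F := fun x =>
    LinearMap.range (Algebra.linearMap K F) ⊔
      riemannRochSpace (D - prim (x.1.1 : Place K F) - prim (x.1.2 : Place K F))
  have hp : ∀ x, ¬ riemannRochSpace D ≤ p x := by
    intro x hle
    have h1 : (ell D : ℤ) = Divisor.degree D + 1 - (genusFF K F : ℤ) :=
      ell_eq_of_degree_gt (by rw [hdeg]; omega)
    have h2 : (ell (D - prim (x.1.1 : Place K F) - prim (x.1.2 : Place K F)) : ℤ) =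
        Divisor.degree (D - prim (x.1.1 : Place K F) - prim (x.1.2 : Place K F)) + 1 -
          (genusFF K F : ℤ) :=
      ell_eq_of_degree_gt (by rw [map_sub, map_sub, degree_prim', degree_prim', hdeg]; omega)
    rw [map_sub, map_sub, degree_prim', degree_prim'] at h2
    have h3 : Module.finrank K (LinearMap.range (Algebra.linearMap K F)) ≤ 1 := by
      have := LinearMap.finrank_range_le (Algebra.linearMap K F)
      rwa [Module.finrank_self] at this
    have h4 := Submodule.finrank_add_le_finrank_add_finrank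
      (LinearMap.range (Algebra.linearMap K F))
      (riemannRochSpace (D - prim (x.1.1 : Place K F) - prim (x.1.2 : Place K F)))
    have h5 : Module.finrank K (riemannRochSpace D) ≤
        Module.finrank K ↥(LinearMap.range (Algebra.linearMap K F) ⊔
          riemannRochSpace (D - prim (x.1.1 : Place K F) - prim (x.1.2 : Place K F))) :=
      Submodule.finrank_mono hle
    unfold ell at h1 h2
    omega
  obtain ⟨z, hzD, hz⟩ := exists_mem_L_forall_notMem D p hp
  rw [mem_L_iff] at hzD
  refine ⟨z, ?_, ?_⟩
  · intro w hw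
    rcases hzD w with h0 | h1
    · rw [h0, Place.ord_zero]
    · rw [hDw w hw] at h1
      omega
  · intro Q hQ Q' hQ' a hQa hQ'a
    by_contra hne
    apply hz ⟨(⟨Q, hQ⟩, ⟨Q', hQ'⟩), hne⟩
    have hQv : Q ≠ v₀ := fun h => hv₀ (h ▸ hQ)
    have hQ'v : Q' ≠ v₀ := fun h => hv₀ (h ▸ hQ')
    have hmem : z - algebraMap K F a ∈ riemannRochSpace (D - prim Q - prim Q') := by
      rw [mem_L_iff]
      intro w
      by_cases h0 : z - algebraMap K F a = 0
      · exact Or.inl h0
      right
      have hza : z - algebraMap K F a ∈ riemannRochSpace D := by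
        refine Submodule.sub_mem _ (mem_L_iff.mpr hzD) ?_
        exact L_mono hD0 (by rw [L_zero]; exact ⟨a, rfl⟩)
      have hw := (mem_L_iff.mp hza w).resolve_left h0
      by_cases hwQ : w = Q
      · subst hwQ
        have := hQa.ord_pos h0
        rw [Finsupp.sub_apply, Finsupp.sub_apply, hDw w hQv, prim_apply_of_ne hne]
        simp only [prim, Finsupp.single_eq_same]
        omega
      · by_cases hwQ' : w = Q'
        · subst hwQ'
          have := hQ'a.ord_pos h0
          rw [Finsupp.sub_apply, Finsupp.sub_apply, hDw w hQ'v, prim_apply_of_ne hwQ]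
          simp only [prim, Finsupp.single_eq_same]
          omega
        · rw [Finsupp.sub_apply, Finsupp.sub_apply, prim_apply_of_ne hwQ,
            prim_apply_of_ne hwQ']
          omega
    show z ∈ LinearMap.range (Algebra.linearMap K F) ⊔
      riemannRochSpace (D - prim Q - prim Q')
    have : z = algebraMap K F a + (z - algebraMap K F a) := by ring
    rw [this]
    exact Submodule.add_mem_sup ⟨a, rfl⟩ hmem

end Fermat.Agent.S37.Rim.H939
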