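import Fermat.Agent.S37.Rim.Assembly
import Fermat.Agent.S37.Rim.H939.Approx

/-!
# S37 / node_rim, leaf RIM-LPSEP (subtask 395; helper939, 2nd owner)

`LPStatement A M` and `SEPStatement A M` of `Rim/Spec.lean` from the normality of the special
fibre in the two charts, in the (weak) form

* `NormFin A M` : every `z ∈ F_{M,k}` regular at all places where `j̄` is regular is `ρ b` for some
  `b ∈ V` regular on every tube over `c ∈ k`;
* `NormInf A M` : every `z ∈ F_{M,k}` regular at all places which are not zeros of `j̄` is `ρ b`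
  for some `b ∈ V` regular on the tube over `∞`.

The functions `z` come from Riemann–Roch (`Approx.lean`).
-/

set_option autoImplicit false
set_option synthInstance.maxHeartbeats 400000
set_option linter.unusedSectionVars false
set_option linter.style.haveILetI false

noncomputable section

namespace Fermat.Agent.S37.Rim.H939

open AlgebraicCurve ModularCurve HahnSeries IsLocalRing Fermat.Agent.S37.H940
open Fermat.Agent.Lib.RR Fermat.Agent.S37.Rim

/-- Normality of the special fibre, finite chart (weak form). -/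
def NormFin (A : ValuationSubring Qb) (M : ℕ) [NeZero M] : Prop :=
  ∀ z : FkM A M, (∀ Q : Place (kA A) (FkM A M), 0 ≤ Q.ord (xk A M) → 0 ≤ Q.ord z) →
    ∃ b : (ctx A M).V, (∀ c : kA A, ∀ P ∈ tube A M (some c), 0 ≤ P.ord (b : FM M)) ∧
      (ctx A M).ρ b = z

/-- Normality of the special fibre, chart at infinity (weak form). -/
def NormInf (A : ValuationSubring Qb) (M : ℕ) [NeZero M] : Prop :=
  ∀ z : FkM A M, (∀ Q : Place (kA A) (FkM A M), Q.ord (xk A M) ≤ 0 → 0 ≤ Q.ord z) →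
    ∃ b : (ctx A M).V, (∀ P ∈ tube A M none, 0 ≤ P.ord (b : FM M)) ∧ (ctx A M).ρ b = z

variable (M ℓ : ℕ) [NeZero M] (hℓ : ℓ.Prime) (hℓM : ¬ ℓ ∣ M)
  (A : ValuationSubring Qb) (hA : A.LiesOverPrime ℓ)

include hℓ hℓM hA

/-- In each chart: a place outside the chart, the points over `c`, and the lifting property. -/
theorem exists_chart_data (hfin : NormFin A M) (hinf : NormInf A M) (c : Option (kA A)) :
    ∃ (v₀ : Place (kA A) (FkM A M)) (𝔊 : Finset (Place (kA A) (FkM A M))),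
      v₀ ∉ 𝔊 ∧ (∀ Q, Q ∈ 𝔊 ↔ IsPt A M c Q) ∧
      ∀ z : FkM A M, (∀ w : Place (kA A) (FkM A M), w ≠ v₀ → 0 ≤ w.ord z) →
        ∃ b : (ctx A M).V, (∀ P ∈ tube A M c, 0 ≤ P.ord (b : FM M)) ∧ (ctx A M).ρ b = z := by
  have hchar := hchar_residue M ℓ hℓ hℓM A hA
  have hx := transcendental_xk M ℓ hℓ hℓM A hA
  obtain ⟨𝔊, -, h𝔊⟩ := exists_pts M ℓ hℓ hℓM A hA c
  cases c with
  | some c =>
    obtain ⟨v₀, hv₀⟩ := Fermat.Agent.S18.H905.exists_place_ord_neg_fullC (kA A) M hchar _ hx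
    refine ⟨v₀, 𝔊, ?_, h𝔊, ?_⟩
    · intro hmem
      have h1 : InMax v₀ (xk A M - algebraMap (kA A) (FkM A M) c) := (h𝔊 v₀).1 hmem
      have h2 : 0 ≤ v₀.ord (xk A M) := ord_nonneg_of_inMax_sub (P := v₀) h1
      omega
    · intro z hz
      obtain ⟨b, hb, hρ⟩ := hfin z (fun Q hQ => hz Q (fun h => by rw [h] at hQ; omega))
      exact ⟨b, hb c, hρ⟩
  | none =>
    obtain ⟨v₀, hv₀⟩ := Fermat.Agent.S18.H905.exists_place_ord_pos_fullC (kA A) M hchar _ hx
    refine ⟨v₀, 𝔊, ?_, h𝔊, ?_⟩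
    · intro hmem
      have h1 : v₀.ord (xk A M) < 0 := (h𝔊 v₀).1 hmem
      omega
    · intro z hz
      obtain ⟨b, hb, hρ⟩ := hinf z (fun Q hQ => hz Q (fun h => by rw [h] at hQ; omega))
      exact ⟨b, hb, hρ⟩

/-- **LEAF LP from normality.** -/
theorem lp_of_norm (hfin : NormFin A M) (hinf : NormInf A M) : LPStatement A M := by
  haveI : IsAlgClosed (kA A) := Fermat.Agent.S18.H9.resAlgClosed _ A
  haveI : FF1 (kA A) (FkM A M) := Fermat.Agent.S18.H383.ff1_residue M ℓ hℓ hℓM A hA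
  intro c Q hQ
  obtain ⟨v₀, 𝔊, hv₀, h𝔊, hlift⟩ := exists_chart_data M ℓ hℓ hℓM A hA hfin hinf c
  obtain ⟨z, hz1, hz2, hz3⟩ := exists_localParam v₀ 𝔊 hv₀ Q ((h𝔊 Q).2 hQ)
  obtain ⟨b, hb, hρ⟩ := hlift z hz1
  refine ⟨b, hb, by rw [hρ]; exact hz2, fun Q' hQ' hne => ?_⟩
  rw [hρ]
  exact hz3 Q' ((h𝔊 Q').2 hQ') hne

/-- **LEAF SEP from normality.** -/
theorem sep_of_norm (hfin : NormFin A M) (hinf : NormInf A M) : SEPStatement A M := by
  haveI : IsAlgClosed (kA A) := Fermat.Agent.S18.H9.resAlgClosed _ A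
  haveI : FF1 (kA A) (FkM A M) := Fermat.Agent.S18.H383.ff1_residue M ℓ hℓ hℓM A hA
  intro c
  obtain ⟨v₀, 𝔊, hv₀, h𝔊, hlift⟩ := exists_chart_data M ℓ hℓ hℓM A hA hfin hinf c
  obtain ⟨z, hz1, hz2⟩ := exists_separator v₀ 𝔊 hv₀
  obtain ⟨b, hb, hρ⟩ := hlift z hz1
  refine ⟨b, hb, fun Q Q' hQ hQ' a ha ha' => ?_⟩
  rw [hρ] at ha ha'
  exact hz2 Q ((h𝔊 Q).2 hQ) Q' ((h𝔊 Q').2 hQ') a ha ha'

/-- **node_rim from FC and normality.** -/
theorem node_rim_of_fc_norm (hFC : FCStatement A M) (hfin : NormFin A M) (hinf : NormInf A M) :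
    ReductionInputsModL A M :=
  node_rim_of_leaves M ℓ hℓ hℓM A hA hFC (lp_of_norm M ℓ hℓ hℓM A hA hfin hinf)
    (sep_of_norm M ℓ hℓ hℓM A hA hfin hinf)

end Fermat.Agent.S37.Rim.H939
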